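/-
GATE-L / (e)(f) prep, brick (N3) (helper36): TWO-CHART ČECH VANISHING, Mathlib only.

`E` = ring of functions regular off `t ∈ {0, ∞}`, `Bf ⊆ E` the finite chart (regular off
`t = ∞`), `Bi ⊆ E` the chart at infinity (regular off `t = 0`), `t ∈ Bf`, `t⁻¹ ∈ Bi`.
If `Bf` is generated as an `S[t]`-module by a finite set `b` and `t⁻ᵈ b ⊆ Bi`, then

  `E = Bf + tⁿ Bi`  for all `n ≥ d`      (`H¹(X, O(n (t)_∞)) = 0`),

with NO hypothesis on the fibres of `Spec S` (no reducedness, no flatness statement): this is the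
whole "flatness" input of the Riemann upper bound on a non-reduced special fibre.

* `exists_add_mul_pow` : the decomposition;
* `exists_lift_of_sub_eq` : the lifting form: `x₀ ∈ Bf`, `x∞ ∈ Bi` with
  `x₀ - tⁿ x∞ ∈ π E` can be corrected inside `π Bf`, `π Bi` to a common element
  `x = tⁿ x'` of `Bf ∩ tⁿ Bi` (a section of `O(n (t)_∞)` over the whole model).
-/
import Mathlib

set_option autoImplicit false

namespace Fermat.Agent.GL.Core.Cech

open Polynomial

variable {S E : Type*} [CommRing S] [CommRing E] [Algebra S E]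

/-- the `S`-submodule `Bf + tⁿ Bi` of `E` -/
def chartSum (Bf Bi : Subalgebra S E) (t : E) (n : ℕ) : Submodule S E :=
  Subalgebra.toSubmodule Bf ⊔ (Subalgebra.toSubmodule Bi).map (LinearMap.mulLeft S (t ^ n))

theorem mem_chartSum {Bf Bi : Subalgebra S E} {t : E} {n : ℕ} {e : E} :
    e ∈ chartSum Bf Bi t n ↔ ∃ x ∈ Bf, ∃ y ∈ Bi, e = x + t ^ n * y := by
  unfold chartSum
  rw [Submodule.mem_sup]
  constructor
  · rintro ⟨x, hx, z, hz, rfl⟩
    obtain ⟨y, hy, rfl⟩ := (Submodule.mem_map).1 hz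
    exact ⟨x, hx, y, hy, rfl⟩
  · rintro ⟨x, hx, y, hy, rfl⟩
    exact ⟨x, hx, t ^ n * y, (Submodule.mem_map).2 ⟨y, hy, rfl⟩, rfl⟩

section main

variable (Bf Bi : Subalgebra S E) (t tinv : E) (ht : t * tinv = 1)
  (htf : t ∈ Bf) (hti : tinv ∈ Bi)

include ht in
theorem pow_mul_pow_inv (a b : ℕ) (h : b ≤ a) : t ^ a * tinv ^ b = t ^ (a - b) := by
  obtain ⟨c, rfl⟩ := Nat.exists_eq_add_of_le h
  rw [Nat.add_sub_cancel_left, pow_add, mul_assoc, mul_comm (t ^ c), ← mul_assoc, ← mul_pow, ht,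
    one_pow, one_mul]

include ht in
theorem pow_inv_mul_pow (a b : ℕ) (h : b ≤ a) : tinv ^ a * t ^ b = tinv ^ (a - b) := by
  have ht' : tinv * t = 1 := by rw [mul_comm]; exact ht
  exact pow_mul_pow_inv tinv t ht' a b h

include ht htf hti in
/-- a monomial times a generator, divided by `t^N`, lies in `Bf + tⁿ Bi` -/
theorem monomial_mem (n d : ℕ) (hn : d ≤ n) {x : E} (hxf : x ∈ Bf) (hxi : tinv ^ d * x ∈ Bi)
    (N i : ℕ) (c : S) :
    tinv ^ N * (algebraMap S E c * t ^ i) * x ∈ chartSum Bf Bi t n := by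
  rw [mem_chartSum]
  by_cases hiN : N ≤ i
  · refine ⟨tinv ^ N * (algebraMap S E c * t ^ i) * x, ?_, 0, Bi.zero_mem, by rw [mul_zero,
      add_zero]⟩
    have : tinv ^ N * (algebraMap S E c * t ^ i) * x = algebraMap S E c * t ^ (i - N) * x := by
      rw [← pow_mul_pow_inv t tinv ht i N hiN]; ring
    rw [this]
    exact Bf.mul_mem (Bf.mul_mem (Bf.algebraMap_mem c) (Bf.pow_mem htf _)) hxf
  · rw [not_le] at hiN
    refine ⟨0, Bf.zero_mem, algebraMap S E c * (tinv ^ (n - d + (N - i)) * (tinv ^ d * x)),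
      Bi.mul_mem (Bi.algebraMap_mem c) (Bi.mul_mem (Bi.pow_mem hti _) hxi), ?_⟩
    rw [zero_add]
    have h1 : tinv ^ N * t ^ i = tinv ^ (N - i) := pow_inv_mul_pow t tinv ht N i hiN.le
    have h2 : t ^ n * tinv ^ (n - d + (N - i)) * tinv ^ d = tinv ^ (N - i) := by
      rw [mul_assoc, ← pow_add]
      have e : n - d + (N - i) + d = (N - i) + n := by omega
      rw [e, pow_add, ← mul_assoc, mul_comm (t ^ n), mul_assoc,
        pow_mul_pow_inv t tinv ht n n le_rfl, Nat.sub_self, pow_zero, mul_one]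
    calc tinv ^ N * (algebraMap S E c * t ^ i) * x
        = algebraMap S E c * (tinv ^ N * t ^ i) * x := by ring
      _ = algebraMap S E c * tinv ^ (N - i) * x := by rw [h1]
      _ = algebraMap S E c * (t ^ n * tinv ^ (n - d + (N - i)) * tinv ^ d) * x := by rw [h2]
      _ = t ^ n * (algebraMap S E c * (tinv ^ (n - d + (N - i)) * (tinv ^ d * x))) := by ring

include ht htf hti in
/-- a polynomial in `t` times a generator, divided by `t^N`, lies in `Bf + tⁿ Bi` -/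
theorem aeval_mem (n d : ℕ) (hn : d ≤ n) {x : E} (hxf : x ∈ Bf) (hxi : tinv ^ d * x ∈ Bi)
    (N : ℕ) (p : S[X]) :
    tinv ^ N * aeval t p * x ∈ chartSum Bf Bi t n := by
  rw [aeval_eq_sum_range, Finset.mul_sum, Finset.sum_mul]
  refine Submodule.sum_mem _ fun i _ => ?_
  have := monomial_mem Bf Bi t tinv ht htf hti n d hn hxf hxi N i (p.coeff i)
  rwa [Algebra.smul_def]

include ht htf hti in
/-- **Two-chart Čech vanishing.**  `E = Bf + tⁿ Bi` for all `n ≥ d`. -/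
theorem exists_add_mul_pow (b : Finset E) (hbf : ∀ y ∈ b, y ∈ Bf)
    (hb : ∀ x ∈ Bf, ∃ p : E → S[X], x = ∑ y ∈ b, aeval t (p y) * y)
    (d : ℕ) (hd : ∀ y ∈ b, tinv ^ d * y ∈ Bi)
    (hE : ∀ e : E, ∃ N : ℕ, t ^ N * e ∈ Bf)
    (n : ℕ) (hn : d ≤ n) (e : E) : ∃ x ∈ Bf, ∃ y ∈ Bi, e = x + t ^ n * y := by
  rw [← mem_chartSum]
  obtain ⟨N, hN⟩ := hE e
  obtain ⟨p, hp⟩ := hb _ hN
  have he : e = ∑ y ∈ b, tinv ^ N * aeval t (p y) * y := by
    have h1 : e = tinv ^ N * (t ^ N * e) := by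
      rw [← mul_assoc, mul_comm (tinv ^ N), pow_mul_pow_inv t tinv ht N N le_rfl, Nat.sub_self,
        pow_zero, one_mul]
    rw [h1, hp, Finset.mul_sum]
    exact Finset.sum_congr rfl fun y _ => by ring
  rw [he]
  exact Submodule.sum_mem _ fun y hy =>
    aeval_mem Bf Bi t tinv ht htf hti n d hn (hbf y hy) (hd y hy) N (p y)

include ht htf hti in
/-- **Lifting form.**  Sections of `O(n (t)_∞)` over the fibre `π = 0` lift to the whole model. -/
theorem exists_lift_of_sub_eq (b : Finset E) (hbf : ∀ y ∈ b, y ∈ Bf)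
    (hb : ∀ x ∈ Bf, ∃ p : E → S[X], x = ∑ y ∈ b, aeval t (p y) * y)
    (d : ℕ) (hd : ∀ y ∈ b, tinv ^ d * y ∈ Bi)
    (hE : ∀ e : E, ∃ N : ℕ, t ^ N * e ∈ Bf)
    (n : ℕ) (hn : d ≤ n) (π : S) {x0 xi e : E} (hx0 : x0 ∈ Bf) (hxi : xi ∈ Bi)
    (h : x0 - t ^ n * xi = algebraMap S E π * e) :
    ∃ y0 ∈ Bf, ∃ yi ∈ Bi, x0 - algebraMap S E π * y0 ∈ Bf ∧ xi + algebraMap S E π * yi ∈ Bi ∧
      x0 - algebraMap S E π * y0 = t ^ n * (xi + algebraMap S E π * yi) := by
  obtain ⟨y0, hy0, yi, hyi, hdec⟩ :=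
    exists_add_mul_pow Bf Bi t tinv ht htf hti b hbf hb d hd hE n hn e
  refine ⟨y0, hy0, yi, hyi, Bf.sub_mem hx0 (Bf.mul_mem (Bf.algebraMap_mem π) hy0),
    Bi.add_mem hxi (Bi.mul_mem (Bi.algebraMap_mem π) hyi), ?_⟩
  rw [hdec] at h
  linear_combination h

end main

end Fermat.Agent.GL.Core.Cech
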