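/-
GATE-L / (e)(f) prep, brick (N1) (helper36): CLAIM 2 OVER AN ABSTRACT NORM PAIR.

`GK/SS/KummerChain2.lean` (`kummer_chain2`) and `GK/SS/Claim2Core.lean` (`claim2_core`) are stated
for two reduction data `R1 R2` (reduced special fibre, residue ring `Ft1 × Ft2`).  Their proofs only
use the abstract core `absCoreNP` over helper90's norm pair together with the fact that the
reduction is a ring homomorphism compatible with the constants.  This file restates them for an
ARBITRARY norm pair `(B, I)` over `A ⊂ K` with a ring-hom reduction `red : B →+* κ` into ANY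
commutative `k`-algebra `κ` (nilpotents allowed):

* `RedNP` : the reduction datum on a norm pair;
* `kummer_chain_np` : `γ ≡ 1 mod I`, `m ∣ div γ` ⟹ `γ ∈ F^{×m}`, special-fibre half in hypothesis
  form (`Lt a b ⊆ κ`);
* `claim2_core_np` : the same with the special-fibre half given by a `ChartPair` on `κ`
  (helper33 `TwistLt`, already written for `[CommRing κ]`): `hT`, `hdimT`, `hLam`.

Intended use (board, helper36 GATE-L design note): the LATTICE norm pair `B = A·B_R`, `I = 𝔪_A·B`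
of the regular model over the unramified base at level `q²M'`, `κ = B_R/q` non-reduced.
-/
import Fermat.Agent.GK.SS.Claim2Core

set_option autoImplicit false

noncomputable section

open AlgebraicCurve IntermediateField Module

namespace Fermat.Agent.GL.Core.Claim2NP

open Fermat.Agent.S24 Fermat.Agent.RRh45 Fermat.Agent.GJ.J1 Fermat.Agent.GJ.J1.InstGen
open Fermat.Agent.GK.MultiVal Fermat.Agent.GK.Core Fermat.Agent.GK.SS.GenSideLD
open Fermat.Agent.GJ.FF.PrincipalOf Fermat.Agent.GJ.J1.G1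
open Fermat.Agent.GK.Core.Twist
open Fermat.Agent.GK.SS.Claim2 (phi Phi1 twist_L twist_LD)

variable {K F : Type*} [Field K] [Field F] [Algebra K F]
variable {k κ : Type*} [Field k] [CommRing κ] [Algebra k κ]

/-- A reduction datum on an abstract norm pair `(B, I)` over `A ⊂ K`: residue map `res : A → k`,
ring-hom reduction `red : B → κ` into a commutative `k`-algebra, forming a reduction system and
compatible with the constants. -/
structure RedNP (A : ValuationSubring K) (B : Subring F) (I : AddSubgroup F)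
    (k κ : Type*) [Field k] [CommRing κ] [Algebra k κ] where
  res : A →+* k
  red : B →+* κ
  np : IsNormPair A B I
  rs : IsRedSystem A B I res red.toAddMonoidHom np
  red_algebraMap : ∀ a : A,
    red ⟨algebraMap K F (a : K), (np.algebraMap_mem_iff _).2 a.2⟩ = algebraMap k κ (res a)

variable {A : ValuationSubring K} {B : Subring F} {I : AddSubgroup F}

/-! ### Multiplicity bookkeeping for `(A, res)` -/

section Mult

variable (R : RedNP A B I k κ)

open Classical in
/-- number of `c ∈ T ∩ A` reducing to `σ` -/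
def mult (T : Finset K) (σ : k) : ℕ :=
  (T.filter fun c => ∃ hc : c ∈ A, R.res ⟨c, hc⟩ = σ).card

open Classical in
/-- number of `c ∈ T` outside `A` -/
def big (_R : RedNP A B I k κ) (T : Finset K) : ℕ := (T.filter fun c => c ∉ A).card

open Classical in
/-- the residue of `c` (zero outside `A`) -/
def resK (c : K) : k := if hc : c ∈ A then R.res ⟨c, hc⟩ else 0

theorem resK_of_mem {c : K} (hc : c ∈ A) : resK R c = R.res ⟨c, hc⟩ := dif_pos hc

open Classical in
/-- the residues of `T ∩ A` -/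
def resImage (T : Finset K) : Finset k := (T.filter fun c => c ∈ A).image (resK R)

theorem mem_resImage {T : Finset K} {σ : k} :
    σ ∈ resImage R T ↔ ∃ c ∈ T, ∃ hc : c ∈ A, R.res ⟨c, hc⟩ = σ := by
  classical
  unfold resImage
  rw [Finset.mem_image]
  constructor
  · rintro ⟨c, hc, rfl⟩
    rw [Finset.mem_filter] at hc
    exact ⟨c, hc.1, hc.2, (resK_of_mem R hc.2).symm⟩
  · rintro ⟨c, hcT, hcA, rfl⟩
    exact ⟨c, Finset.mem_filter.mpr ⟨hcT, hcA⟩, resK_of_mem R hcA⟩

theorem sum_mult_add_big (T : Finset K) :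
    ∑ σ ∈ resImage R T, mult R T σ + big R T = T.card := by
  classical
  have h1 : (T.filter fun c => c ∈ A).card =
      ∑ σ ∈ resImage R T, ((T.filter fun c => c ∈ A).filter fun c => resK R c = σ).card :=
    Finset.card_eq_sum_card_fiberwise fun c hc => Finset.mem_image_of_mem _ hc
  have h2 : ∀ σ, ((T.filter fun c => c ∈ A).filter fun c => resK R c = σ) =
      T.filter fun c => ∃ hc : c ∈ A, R.res ⟨c, hc⟩ = σ := by
    intro σ
    ext c
    simp only [Finset.mem_filter]
    constructor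
    · rintro ⟨⟨hcT, hcA⟩, hc⟩
      exact ⟨hcT, hcA, by rw [← resK_of_mem R hcA]; exact hc⟩
    · rintro ⟨hcT, hcA, hc⟩
      exact ⟨⟨hcT, hcA⟩, by rw [resK_of_mem R hcA]; exact hc⟩
  have h3 := Finset.card_filter_add_card_filter_not (s := T) (fun c => c ∈ A)
  unfold mult big
  rw [← h3, h1]
  congr 1
  exact Finset.sum_congr rfl fun σ _ => by rw [h2 σ]

/-- choice of `t2`: integral, outside `T`, with residue different from all residues of `T ∩ A`. -/
theorem exists_t2 [Infinite k] (T : Finset K) :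
    ∃ t2 : K, ∃ ht2 : t2 ∈ A, t2 ∉ T ∧
      ∀ c ∈ T, ∀ hc : c ∈ A, R.res ⟨c, hc⟩ ≠ R.res ⟨t2, ht2⟩ := by
  obtain ⟨c0, hc0⟩ := Infinite.exists_notMem_finset (resImage R T)
  obtain ⟨a, rfl⟩ := R.rs.res_surj c0
  have hsep : ∀ c ∈ T, ∀ hc : c ∈ A, R.res ⟨c, hc⟩ ≠ R.res ⟨(a : K), a.2⟩ := by
    intro c hcT hcA h
    exact hc0 ((mem_resImage R).mpr ⟨c, hcT, hcA, h⟩)
  refine ⟨a, a.2, fun haT => ?_, hsep⟩
  exact hsep a haT a.2 rfl

end Mult

/-! ### The Kummer chain over a norm pair -/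

section Chain

variable [IsAlgClosed K] (x₀ : F) [IsGen K x₀]

include x₀ in
/-- **The Kummer chain over an abstract norm pair.**  `γ ≡ 1 mod I` and `m ∣ div γ` force
`γ ∈ F^{×m}`, given the special-fibre half in hypothesis form.  (`kummer_chain2` with
`(ball2, rad2, red2)` replaced by `(B, I, R.red)`.) -/
theorem kummer_chain_np (R : RedNP A B I k κ)
    (ho : HasOrthoBases A B I) (hrk : RankOne A)
    {t : F} (htK : Transcendental K t)
    {m : ℕ} (hm : (m : k) ≠ 0) {γ : F} (hγ : γ - 1 ∈ I)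
    (hdvd : ∀ P : Place K F, (m : ℤ) ∣ P.ord γ)
    (T : Finset K)
    (hT : ∀ P : Place K F, P.ord γ ≠ 0 → 0 ≤ P.ord t →
      ∃ s ∈ T, 0 < P.ord (t - algebraMap K F s))
    (t2 : K) (ht2 : t2 ∉ T)
    -- the special-fibre half
    (Lt : ℕ → ℕ → Submodule k κ)
    (Lt_mono : ∀ {a a' b b' : ℕ}, a ≤ a' → b ≤ b' → Lt a b ≤ Lt a' b')
    (Lt_fin : ∀ a b : ℕ, FiniteDimensional k (Lt a b))
    (Lt_inf : ∀ a b a' b' : ℕ, Lt a b ⊓ Lt a' b' = Lt (min a a') (min b b'))
    (one_mem_Lt : (1 : κ) ∈ Lt 0 0)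
    (g' c : ℕ)
    (hg' : @genusRR K F _ _ _ (Fermat.Agent.GJ.FF.finiteResidues x₀)
        (hasPrincipalDivisors_gen x₀) (Fermat.Agent.GJ.FF.nonempty_place x₀) ≤ (g' : ℤ))
    (dim_Lt : ∀ a b : ℕ,
      c ≤ a * ((T.card + 1) * finrank K⟮t⟯ F) + b * finrank K⟮t⟯ F →
      finrank k (Lt a b) + g' ≤
        a * ((T.card + 1) * finrank K⟮t⟯ F) + b * finrank K⟮t⟯ F + 1)
    (red_L : ∀ (a b : ℕ) (x : B),
      (x : F) ∈ Lspace K t (weight T t2 a b) (a : ℤ) → R.red x ∈ Lt a b)
    (red_LD : ∀ b : ℕ, c ≤ b * finrank K⟮t⟯ F → ∀ x : B,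
      LDCond t m γ 1 t2 b (x : F) → R.red x ∈ Lt 0 b) :
    ∃ v : F, v ≠ 0 ∧ γ = v ^ m := by
  classical
  have hFR : FiniteResidues K F := Fermat.Agent.GJ.FF.finiteResidues x₀
  have hPD : HasPrincipalDivisors K F := hasPrincipalDivisors_gen x₀
  have hNE : Nonempty (Place K F) := Fermat.Agent.GJ.FF.nonempty_place x₀
  have hnp : IsNormPair A B I := R.np
  have hRs := R.rs
  have hm0 : m ≠ 0 := by
    rintro rfl
    simp at hm
  have hγ0 : γ ≠ 0 := np_ne_zero_of_sub_one hnp hγ
  have h10 : (1 : F) ≠ 0 := one_ne_zero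
  have hord1 : ∀ P : Place K F, P.ord (1 : F) = 0 := fun P => P.ord_one
  -- the generic side
  obtain ⟨G, hGm, hGu, hGd1, hGd2, hGg, hGL, hGLD, hGsec⟩ :=
    exists_genSide_of_dvd_LD x₀ htK hm0 hγ0 h10
      (fun P => by rw [hord1 P, sub_zero]; exact hdvd P) T
      (fun P hP hPt => hT P (by rwa [hord1 P, sub_zero] at hP) hPt) t2 ht2
  have hGu' : G.u = γ := by rw [hGu, div_one]
  have hGg' : G.g ≤ g' := by
    have : (G.g : ℤ) ≤ (g' : ℤ) := hGg ▸ hg'
    exact_mod_cast this
  -- the abstract core datum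
  let D : CoreDataNP A B I R.res R.red.toAddMonoidHom :=
    { L := G.L
      LD := G.LD
      Lt := Lt
      d1 := G.d1
      d2 := G.d2
      g := G.g
      c := c
      a0 := G.a0
      m := G.m
      u := G.u
      n1 := G.n1
      L_mono := G.L_mono
      LD_mono := G.LD_mono
      Lt_mono := Lt_mono
      one_mem := G.one_mem
      L_mul := G.L_mul
      LD_mul := G.LD_mul
      LD_le := G.LD_le
      book := G.book
      L_fin := G.L_fin
      Lt_fin := Lt_fin
      red_L := fun a b x hx => red_L a b x (by rw [← hGL a b]; exact hx)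
      red_LD := fun b hb x hx => red_LD b (by rw [← hGd2]; exact hb) x ((hGLD b x).mp hx)
      one_mem_Lt := by
        show R.red 1 ∈ Lt 0 0
        rw [map_one]; exact one_mem_Lt
      d1_pos := G.d1_pos
      d2_pos := G.d2_pos
      dim_L := G.dim_L
      dim_LD := G.dim_LD
      dim_Lt := by
        intro a b hcab
        rw [hGd1, hGd2] at hcab ⊢
        have := dim_Lt a b hcab
        omega
      Lt_inf := Lt_inf
      hm := by rw [hGm]; exact hm
      u_mem := G.u_mem
      u_val := by rw [hGu']; exact hγ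
      u_trick := G.u_trick }
  obtain ⟨a', b', x, hx0, hx1, hx2⟩ := absCoreNP hnp ho hRs hrk D
  have hsec := hGsec a' b' x hx0 hx1 hx2
  obtain ⟨v, hv0, hv⟩ := Fermat.Agent.GJ.J1.KummerFinish.kummer_finish (fun P => deg_pos P)
    (fun g hg0 h0 => Fermat.Agent.GJ.FF.Fibre.exists_const_of_forall_ord_eq_zero' x₀ h0)
    hm0 hγ0 h10 hx0 hsec
  exact ⟨v, hv0, by rw [hv, one_mul]⟩

end Chain

/-! ### Reductions of the twisting functions -/

section Core

theorem algebraMap_mem_B (R : RedNP A B I k κ) {c : K} (hcA : c ∈ A) : algebraMap K F c ∈ B :=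
  (R.np.algebraMap_mem_iff c).2 hcA

variable (R : RedNP A B I k κ)

theorem red_algebraMap' {c : K} (hcA : c ∈ A) :
    R.red ⟨algebraMap K F c, algebraMap_mem_B R hcA⟩ = algebraMap k κ (R.res ⟨c, hcA⟩) :=
  R.red_algebraMap ⟨c, hcA⟩

include R in
theorem phi_mem_B {t : F} (htB : t ∈ B) (c : K) : phi A t c ∈ B := by
  unfold phi
  split_ifs with h
  · exact B.sub_mem htB (algebraMap_mem_B R h)
  · have hinv : c⁻¹ ∈ A := (A.mem_or_inv_mem c).resolve_left h
    exact B.sub_mem B.one_mem (B.mul_mem (algebraMap_mem_B R hinv) htB)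

open Classical in
theorem red_phi {t : F} (htB : t ∈ B) (c : K) :
    R.red ⟨phi A t c, phi_mem_B R htB c⟩ =
      if c ∈ A then R.red ⟨t, htB⟩ - algebraMap k κ (resK R c) else 1 := by
  by_cases h : c ∈ A
  · rw [if_pos h, resK_of_mem R h, ← red_algebraMap' R h, ← map_sub]
    congr 1
    apply Subtype.ext
    show phi A t c = t - algebraMap K F c
    unfold phi
    rw [if_pos h]
  · rw [if_neg h]
    have hinv : c⁻¹ ∈ A := (A.mem_or_inv_mem c).resolve_left h
    have hnon : c⁻¹ ∈ A.nonunits := by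
      rw [ValuationSubring.mem_nonunits_iff, map_inv₀]
      have : 1 < A.valuation c := by
        rw [← not_le, ValuationSubring.valuation_le_one_iff]; exact h
      exact inv_lt_one_of_one_lt₀ this
    have hres : R.res ⟨c⁻¹, hinv⟩ = 0 := (R.rs.res_ker ⟨c⁻¹, hinv⟩).mpr hnon
    have e : (⟨phi A t c, phi_mem_B R htB c⟩ : B) =
        1 - ⟨algebraMap K F c⁻¹, algebraMap_mem_B R hinv⟩ * ⟨t, htB⟩ := by
      apply Subtype.ext
      show phi A t c = 1 - algebraMap K F c⁻¹ * t
      unfold phi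
      rw [if_neg h]
    rw [e, map_sub, map_one, map_mul, red_algebraMap' R hinv, hres, map_zero, zero_mul, sub_zero]

/-- `Φ₁` as an element of the ball -/
def Phi1NP {t : F} (htB : t ∈ B) (T : Finset K) : B :=
  ∏ c ∈ T, (⟨phi A t c, phi_mem_B R htB c⟩ : B)

theorem coe_Phi1NP {t : F} (htB : t ∈ B) (T : Finset K) :
    ((Phi1NP R htB T : B) : F) = Phi1 A t T := by
  unfold Phi1NP Phi1
  rw [← Subring.coe_subtype, map_prod]
  rfl

theorem red_Phi1NP {t : F} (htB : t ∈ B) (T : Finset K) :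
    R.red (Phi1NP R htB T) =
      ∏ σ ∈ resImage R T,
        (R.red ⟨t, htB⟩ - algebraMap k κ σ) ^ mult R T σ := by
  classical
  unfold Phi1NP
  rw [map_prod]
  simp only [red_phi R htB]
  rw [← Finset.prod_filter]
  rw [Finset.prod_comp (fun σ => R.red ⟨t, htB⟩ - algebraMap k κ σ) (resK R)]
  have himg : (T.filter fun c => c ∈ A).image (resK R) = resImage R T := by
    unfold resImage
    congr
  rw [himg]
  refine Finset.prod_congr rfl fun σ _ => ?_
  congr 1
  unfold mult
  rw [Finset.filter_filter]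
  congr 1
  refine Finset.filter_congr fun c _ => ?_
  constructor
  · rintro ⟨hcA, hres⟩
    exact ⟨hcA, by rw [← resK_of_mem R hcA]; exact hres⟩
  · rintro ⟨hcA, hres⟩
    exact ⟨hcA, by rw [resK_of_mem R hcA]; exact hres⟩

/-- `Φ₂ = t - t2` as an element of the ball -/
def Phi2NP {t : F} (htB : t ∈ B) {t2 : K} (ht2A : t2 ∈ A) : B :=
  ⟨t, htB⟩ - ⟨algebraMap K F t2, algebraMap_mem_B R ht2A⟩

theorem coe_Phi2NP {t : F} (htB : t ∈ B) {t2 : K} (ht2A : t2 ∈ A) :
    ((Phi2NP R htB ht2A : B) : F) = t - algebraMap K F t2 := rfl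

theorem red_Phi2NP {t : F} (htB : t ∈ B) {t2 : K} (ht2A : t2 ∈ A) :
    R.red (Phi2NP R htB ht2A) =
      R.red ⟨t, htB⟩ - algebraMap k κ (R.res ⟨t2, ht2A⟩) := by
  unfold Phi2NP
  rw [map_sub, red_algebraMap' R ht2A]

/-! ### The core of Claim 2 over a norm pair -/

variable [IsAlgClosed K] (x₀ : F) [IsGen K x₀]

include x₀ in
/-- **Claim 2 over an abstract norm pair.**  If the reductions of `Lfib K t n ∩ B` land in the
graded family `P.T n` of a chart pair on the (possibly non-reduced) residue algebra `κ` (with the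
Riemann upper bound) and, for `y ≡ 1 mod I` with `m ∣ div y`, the reductions of
`L((1/m) div y + b (t)_∞) ∩ B` land in `P.T b` too for `b ≥ c0`, then `y` is an `m`-th power. -/
theorem claim2_core_np [Infinite k]
    (ho : HasOrthoBases A B I) (hrk : RankOne A)
    {t : F} (htB : t ∈ B) (htK : Transcendental K t)
    (P : ChartPair k κ) (hs : P.s = R.red ⟨t, htB⟩)
    (hunit : ∀ c : k, IsUnit (P.s - algebraMap k κ c))
    (hTfin : ∀ n, FiniteDimensional k (P.T n))
    (hT : ∀ (n : ℕ) (x : B), (x : F) ∈ Lfib K t (n : ℤ) → R.red x ∈ P.T n)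
    (g' c0 : ℕ)
    (hg' : @genusRR K F _ _ _ (Fermat.Agent.GJ.FF.finiteResidues x₀)
        (hasPrincipalDivisors_gen x₀) (Fermat.Agent.GJ.FF.nonempty_place x₀) ≤ (g' : ℤ))
    (hdimT : ∀ n, c0 ≤ n → finrank k (P.T n) + g' ≤ n * finrank K⟮t⟯ F + 1)
    {m : ℕ} (hm : (m : k) ≠ 0) {y : F} (hy1 : y - 1 ∈ I)
    (hdvd : ∀ v : Place K F, (m : ℤ) ∣ v.ord y)
    (hLam : ∀ b : ℕ, c0 ≤ b → ∀ x : B,
      (x : F) ^ m * y ∈ Lfib K t ((m * b : ℕ) : ℤ) → R.red x ∈ P.T b) :
    ∃ v : F, v ≠ 0 ∧ y = v ^ m := by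
  classical
  have H : Hyp K F := hyp_of_isGen x₀
  have hm0 : m ≠ 0 := by
    rintro rfl
    simp at hm
  have hy0 : y ≠ 0 := np_ne_zero_of_sub_one R.np hy1
  have htc : ∀ c : K, t ≠ algebraMap K F c := fun c h => htK (h ▸ isAlgebraic_algebraMap c)
  -- the value set and `t2`
  obtain ⟨T, hTv⟩ := exists_valueSet x₀ htK y
  obtain ⟨t2, ht2A, ht2T, hsep⟩ := exists_t2 R T
  have ht2img : R.res ⟨t2, ht2A⟩ ∉ resImage R T := by
    intro h
    obtain ⟨c, hcT, hcA, hres⟩ := (mem_resImage R).mp h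
    exact hsep c hcT hcA hres
  -- the twisting pair
  set Q : TwistPair P :=
    P.ofRoots (resImage R T) (mult R T) (1 + big R T) (R.res ⟨t2, ht2A⟩) ht2img hunit with hQ
  have he1 : Q.e1 = T.card + 1 := by
    rw [hQ, ChartPair.ofRoots_e1]
    have := sum_mult_add_big R T
    omega
  have he2 : Q.e2 = 1 := rfl
  have hp1 : Q.p1 = R.red (Phi1NP R htB T) := by
    rw [hQ, ChartPair.ofRoots_p1, red_Phi1NP, hs]
  have hp2 : Q.p2 = R.red (Phi2NP R htB ht2A) := by
    rw [hQ, ChartPair.ofRoots_p2, red_Phi2NP, hs]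
  have hn : 0 < finrank K⟮t⟯ F := by
    have : FiniteDimensional K⟮t⟯ F := H.fd t htK
    exact Module.finrank_pos
  refine kummer_chain_np x₀ R ho hrk htK hm hy1 hdvd T hTv t2 ht2T Q.Lt
    (fun ha hb => Q.Lt_mono ha hb) (Q.Lt_fin hTfin) Q.Lt_inf Q.one_mem_Lt g'
    (c0 * finrank K⟮t⟯ F) hg' ?_ ?_ ?_
  · -- `dim_Lt`
    intro a b hcab
    have := Q.dim_Lt (d := finrank K⟮t⟯ F) (g := g') (c0 := c0) hn hdimT a b
      (by rw [he1, he2, one_mul]; exact hcab)
    rwa [he1, he2, one_mul] at this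
  · -- `red_L`
    intro a b x hx
    have h1 := twist_L (A := A) htc T t2 ht2T a b hx
    set X : B := x * Phi1NP R htB T ^ a * Phi2NP R htB ht2A ^ b with hX
    have hXcoe : ((X : B) : F) =
        (x : F) * Phi1 A t T ^ a * (t - algebraMap K F t2) ^ b := by
      rw [hX]
      push_cast
      rw [coe_Phi1NP, coe_Phi2NP]
    have h2 := hT (a * (T.card + 1) + b) X (by rw [hXcoe]; exact h1)
    rw [Q.mem_Lt', he1, he2, mul_one, hp1, hp2]
    rw [hX, map_mul, map_mul, map_pow, map_pow] at h2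
    exact h2
  · -- `red_LD`
    intro b hb x hx
    have hb' : c0 ≤ b := Nat.le_of_mul_le_mul_right hb hn
    have h1 := twist_LD x₀ htK hm0 hy0 t2 b hx
    set X : B := x * Phi2NP R htB ht2A ^ b with hX
    have hXcoe : ((X : B) : F) = (x : F) * (t - algebraMap K F t2) ^ b := by
      rw [hX]
      push_cast
      rw [coe_Phi2NP]
    have h2 := hLam b hb' X (by rw [hXcoe]; exact h1)
    rw [Q.mem_Lt_zero_left, he2, mul_one, hp2]
    rw [hX, map_mul, map_pow] at h2
    exact h2

end Core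

end Fermat.Agent.GL.Core.Claim2NP
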