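/-
GATE-L / (e)(f) prep, brick (N3'), (helper36): `hdimT` AND `hTfin` OF `claim2_core_np` FROM THE
LIFTING PROPERTY (the output of the two-chart Čech vanishing, `GL/Core/Cech.lean`).

If every element of `P.T n` (`n ≥ d`) is the reduction of an element of `Lfib K t n ∩ B`, then
`P.T n ⊆ redBall (Lfib K t n)`, whose dimension is `dim_K Lfib K t n` (orthonormal bases), so the
Riemann count on the GENERIC fibre bounds `dim_k P.T n`.  No information on the special fibre
(genera of components, number and type of singular points, nilpotent layers) is used.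
-/
import Fermat.Agent.GL.Core.Claim2NP

set_option autoImplicit false

noncomputable section

open IntermediateField Module

namespace Fermat.Agent.GL.Core.DimT

open Fermat.Agent.GJ.J1 Fermat.Agent.GK.MultiVal Fermat.Agent.GK.Core.Twist
open Fermat.Agent.GL.Core.Claim2NP

variable {K F : Type*} [Field K] [Field F] [Algebra K F]
variable {k κ : Type*} [Field k] [CommRing κ] [Algebra k κ]
variable {A : ValuationSubring K} {B : Subring F} {I : AddSubgroup F}

/-- `P.T n` is contained in the reduction of the unit ball of `Lfib K t n`. -/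
theorem T_le_redBall (R : RedNP A B I k κ) {t : F} (P : ChartPair k κ) (n : ℕ)
    (hlift : ∀ z ∈ P.T n, ∃ x : B, (x : F) ∈ Lfib K t (n : ℤ) ∧ R.red x = z) :
    P.T n ≤ redBall (k := k) B R.red.toAddMonoidHom (Lfib K t (n : ℤ)) := by
  intro z hz
  obtain ⟨x, hx, rfl⟩ := hlift z hz
  exact red_mem_redBall (red := R.red.toAddMonoidHom) x hx

/-- **`hTfin` and `hdimT` from the lifting property.** -/
theorem hdimT_of_lift (R : RedNP A B I k κ) (ho : HasOrthoBases A B I) {t : F}
    (P : ChartPair k κ) (d : ℕ)
    (hlift : ∀ n, d ≤ n → ∀ z ∈ P.T n, ∃ x : B, (x : F) ∈ Lfib K t (n : ℤ) ∧ R.red x = z)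
    (hfin : ∀ n : ℕ, FiniteDimensional K (Lfib K t (n : ℤ)))
    (g' n0 : ℕ)
    (hRiem : ∀ n : ℕ, n0 ≤ n →
      finrank K (Lfib K t (n : ℤ)) + g' ≤ n * finrank K⟮t⟯ F + 1) :
    (∀ n, FiniteDimensional k (P.T n)) ∧
      ∀ n, max d n0 ≤ n → finrank k (P.T n) + g' ≤ n * finrank K⟮t⟯ F + 1 := by
  have hle : ∀ n, d ≤ n →
      P.T n ≤ redBall (k := k) B R.red.toAddMonoidHom (Lfib K t (n : ℤ)) :=
    fun n hn => T_le_redBall R P n (hlift n hn)
  have hfd : ∀ n, d ≤ n → FiniteDimensional k (P.T n) := by
    intro n hn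
    have := hfin n
    have := ho.finiteDimensional_redBall R.rs (Lfib K t (n : ℤ))
    exact Submodule.finiteDimensional_of_le (hle n hn)
  refine ⟨fun n => ?_, fun n hn => ?_⟩
  · have := hfd (max n d) (le_max_right _ _)
    exact Submodule.finiteDimensional_of_le (P.T_mono (le_max_left n d))
  · have hdn : d ≤ n := (le_max_left _ _).trans hn
    have hn0 : n0 ≤ n := (le_max_right _ _).trans hn
    have := hfin n
    have := ho.finiteDimensional_redBall R.rs (Lfib K t (n : ℤ))
    have h1 : finrank k (P.T n) ≤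
        finrank k (redBall (k := k) B R.red.toAddMonoidHom (Lfib K t (n : ℤ))) :=
      Submodule.finrank_mono (hle n hdn)
    rw [ho.finrank_redBall R.rs (Lfib K t (n : ℤ))] at h1
    have := hRiem n hn0
    omega

end Fermat.Agent.GL.Core.DimT
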