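/-
GATE-L / (e)(f) prep, brick (N4) (helper36): `hLam` FROM LOCAL GENERATORS, Mathlib only.

On a NON-reduced special fibre the K shortcut "`z ^ m` regular ⟹ `z` regular" is false
(`z = s + ε / s ^ N`, `ε ^ 2 = 0`), so the inclusion `red (L((1/m) div γ + b (t)_∞) ∩ B) ⊆ T b`
(`hLam` of `claim2_core`) has to be proved UPSTAIRS, on the normal model, from local generators of
the Kummer divisor that are `≡ 1` modulo `q`:

* `Bgen` : the semilocal ring of the generic points of the special fibre (`w_i ≥ 0`);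
* `Bf ⊆ Bgen` : a chart (functions regular on the chart, `w_i ≥ 0`), `m`-root closed in the
  ambient field (it is integrally closed);
* `(LOC_M)` for every maximal ideal `M ∋ q` of `Bf`: some `g = 1 + q h` (`h ∈ Bgen`) with
  `g ^ m / γ` regular at `M` (one-sided: `div g ^ m ≥ div γ` near the closed point `M`).

`mem_add_of_local` : an element of `Bgen` which is locally (at every maximal ideal containing `q`)
congruent modulo `q Bgen` to a regular element is globally congruent to an element of `Bf`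
(the ideal of denominators contains `q` and lies in no maximal ideal).

`mem_add_of_loc` : `x ∈ Bgen`, `x ^ m γ ∈ Bf`, `(LOC_M)` for all `M ∋ q` ⟹ `x ∈ Bf + q Bgen`,
i.e. the reduction of `x` modulo `q` lies in `Bf / q`.
-/
import Mathlib

set_option autoImplicit false

namespace Fermat.Agent.GL.Core.LamOfLoc

variable {F : Type*} [Field F]

/-- **Local-global principle modulo `q`.** -/
theorem mem_add_of_local (Bgen Bf : Subring F) (hle : Bf ≤ Bgen) {q : F} (hq : q ∈ Bf)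
    {x : F} (hx : x ∈ Bgen)
    (hloc : ∀ M : Ideal Bf, M.IsMaximal → (⟨q, hq⟩ : Bf) ∈ M →
      ∃ s : Bf, s ∉ M ∧ ∃ a ∈ Bf, ∃ c ∈ Bgen, (s : F) * x = a + q * c) :
    ∃ a ∈ Bf, ∃ c ∈ Bgen, x = a + q * c := by
  classical
  -- the ideal of denominators
  let J : Ideal Bf :=
    { carrier := {r | ∃ a ∈ Bf, ∃ c ∈ Bgen, (r : F) * x = a + q * c}
      add_mem' := by
        rintro r r' ⟨a, ha, c, hc, h⟩ ⟨a', ha', c', hc', h'⟩
        refine ⟨a + a', Bf.add_mem ha ha', c + c', Bgen.add_mem hc hc', ?_⟩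
        push_cast
        rw [add_mul, h, h']; ring
      zero_mem' := ⟨0, Bf.zero_mem, 0, Bgen.zero_mem, by simp⟩
      smul_mem' := by
        rintro u r ⟨a, ha, c, hc, h⟩
        refine ⟨(u : F) * a, Bf.mul_mem u.2 ha, (u : F) * c, Bgen.mul_mem (hle u.2) hc, ?_⟩
        rw [smul_eq_mul]
        push_cast
        rw [mul_assoc, h]; ring }
  have hqJ : (⟨q, hq⟩ : Bf) ∈ J := ⟨0, Bf.zero_mem, x, hx, by simp⟩
  have hJtop : J = ⊤ := by
    by_contra hne
    obtain ⟨M, hM, hJM⟩ := Ideal.exists_le_maximal J hne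
    obtain ⟨s, hsM, hsJ⟩ := hloc M hM (hJM hqJ)
    exact hsM (hJM hsJ)
  have h1 : (1 : Bf) ∈ J := by rw [hJtop]; trivial
  obtain ⟨a, ha, c, hc, h⟩ := h1
  exact ⟨a, ha, c, hc, by simpa using h⟩

/-- **`hLam` from local generators `≡ 1 mod q`.** -/
theorem mem_add_of_loc (Bgen Bf : Subring F) (hle : Bf ≤ Bgen) {q : F} (hq : q ∈ Bf) (m : ℕ)
    (hroot : ∀ y : F, y ^ m ∈ Bf → y ∈ Bf) {γ : F} (hγ : γ ≠ 0)
    (hloc : ∀ M : Ideal Bf, M.IsMaximal → (⟨q, hq⟩ : Bf) ∈ M →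
      ∃ h ∈ Bgen, ∃ s : Bf, s ∉ M ∧ (s : F) * (1 + q * h) ^ m / γ ∈ Bf)
    {x : F} (hx : x ∈ Bgen) (hxγ : x ^ m * γ ∈ Bf) :
    ∃ a ∈ Bf, ∃ c ∈ Bgen, x = a + q * c := by
  rcases Nat.eq_zero_or_pos m with rfl | hm
  · exact ⟨x, hroot x (by rw [pow_zero]; exact Bf.one_mem), 0, Bgen.zero_mem, by simp⟩
  refine mem_add_of_local Bgen Bf hle hq hx fun M hM hqM => ?_
  obtain ⟨h, hh, s, hsM, hs⟩ := hloc M hM hqM
  refine ⟨s, hsM, ?_⟩
  -- `(s x g) ^ m = s ^ (m - 1) * (x ^ m γ) * (s g ^ m / γ) ∈ Bf`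
  have hpow : ((s : F) * x * (1 + q * h)) ^ m =
      (s : F) ^ (m - 1) * (x ^ m * γ) * ((s : F) * (1 + q * h) ^ m / γ) := by
    have e : (s : F) ^ m = (s : F) ^ (m - 1) * (s : F) := by
      rw [← pow_succ, Nat.sub_add_cancel hm]
    rw [mul_pow, mul_pow, e]
    field_simp
  have hmem : ((s : F) * x * (1 + q * h)) ^ m ∈ Bf := by
    rw [hpow]
    exact Bf.mul_mem (Bf.mul_mem (Bf.pow_mem s.2 _) hxγ) hs
  have ha := hroot _ hmem
  refine ⟨(s : F) * x * (1 + q * h), ha, -((s : F) * x * h), ?_, by ring⟩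
  exact Bgen.neg_mem (Bgen.mul_mem (Bgen.mul_mem (hle s.2) hx) hh)

end Fermat.Agent.GL.Core.LamOfLoc
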